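/-
S56lib / Kum2 / QpPow  (helper4).

`ℚ_p^× / (ℚ_p^×)^p` has at most `p²` elements for odd `p`, in the explicit form
`x = p^i (1+p)^j y^p` with `i, j < p`.
-/
import Mathlib

set_option autoImplicit false

noncomputable section

namespace Fermat.Agent.S56lib.Kum2

open Polynomial

/-- `(1 + b) ^ p = 1 + p b + p b² c + b ^ p` (binomial expansion for a prime exponent). -/
theorem one_add_pow_prime_expand {R : Type*} [CommRing R] {p : ℕ} (hp : p.Prime) (b : R) :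
    ∃ c : R, (1 + b) ^ p = 1 + p * b + p * b ^ 2 * c + b ^ p := by
  obtain ⟨n, rfl⟩ : ∃ n, p = n + 2 := ⟨p - 2, by have := hp.two_le; omega⟩
  refine ⟨∑ m ∈ Finset.range n, b ^ m * (((n + 2).choose (m + 2) / (n + 2) : ℕ) : R), ?_⟩
  have hchoose : ∀ m ∈ Finset.range n,
      (((n + 2).choose (m + 2) : ℕ) : R) = ((n + 2 : ℕ) : R) *
        (((n + 2).choose (m + 2) / (n + 2) : ℕ) : R) := by
    intro m hm
    have hm' : m + 2 < n + 2 := by simpa using Finset.mem_range.mp hm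
    have hdvd := hp.dvd_choose_self (Nat.succ_ne_zero (m + 1)) hm'
    rw [← Nat.cast_mul, Nat.mul_div_cancel' hdvd]
  rw [add_comm 1 b, add_pow, Finset.sum_range_succ, Finset.sum_range_succ',
    Finset.sum_range_succ']
  simp only [one_pow, mul_one, Nat.choose_self, Nat.cast_one, pow_zero, Nat.choose_zero_right,
    Nat.sub_self, zero_add, pow_one, Nat.choose_one_right]
  rw [Finset.sum_congr rfl (fun m hm => by rw [hchoose m hm])]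
  rw [Finset.mul_sum]
  have : ∀ m ∈ Finset.range n, b ^ (m + 1 + 1) * (((n + 2 : ℕ) : R) *
      (((n + 2).choose (m + 2) / (n + 2) : ℕ) : R)) =
      ((n + 2 : ℕ) : R) * b ^ 2 * (b ^ m * (((n + 2).choose (m + 2) / (n + 2) : ℕ) : R)) := by
    intro m _
    ring
  rw [Finset.sum_congr rfl this]
  push_cast
  ring

variable (p : ℕ) [hp : Fact p.Prime]

/-- `(1 + p s)^p = 1 + p² s + p³ c` for odd `p`. -/
theorem one_add_p_mul_pow (hp2 : p ≠ 2) (s : ℤ_[p]) :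
    ∃ c : ℤ_[p], (1 + (p : ℤ_[p]) * s) ^ p = 1 + (p : ℤ_[p]) ^ 2 * s + (p : ℤ_[p]) ^ 3 * c := by
  obtain ⟨c, hc⟩ := one_add_pow_prime_expand hp.out ((p : ℤ_[p]) * s)
  have h3 : 3 ≤ p := by
    have := hp.out.two_le
    omega
  obtain ⟨n, hn⟩ : ∃ n, p = n + 3 := ⟨p - 3, by omega⟩
  refine ⟨s ^ 2 * c + (p : ℤ_[p]) ^ n * s ^ p, ?_⟩
  rw [hc]
  have hx : ∀ x : ℤ_[p], x ^ p = x ^ 3 * x ^ n := fun x => by
    rw [← pow_add]
    congr 1
    omega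
  have : ((p : ℤ_[p]) * s) ^ p = (p : ℤ_[p]) ^ 3 * ((p : ℤ_[p]) ^ n * s ^ p) := by
    rw [mul_pow, hx (p : ℤ_[p])]
    ring
  rw [this]
  ring

/-- Elements of `1 + p² ℤ_p` are `p`-th powers (odd `p`). -/
theorem exists_pow_eq_one_add_sq_mul (hp2 : p ≠ 2) (s : ℤ_[p]) :
    ∃ w : ℤ_[p], w ^ p = 1 + (p : ℤ_[p]) ^ 2 * s := by
  obtain ⟨c, hc⟩ := one_add_p_mul_pow p hp2 s
  set a : ℤ_[p] := 1 + (p : ℤ_[p]) * s with ha
  set F : ℤ_[p][X] := X ^ p - C (1 + (p : ℤ_[p]) ^ 2 * s) with hF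
  have hp1 : (1 : ℝ) < p := by exact_mod_cast hp.out.one_lt
  have hp0 : (0 : ℝ) < p := by linarith
  have hanorm : ‖a‖ = 1 := by
    have h1 : ‖(p : ℤ_[p]) * s‖ < 1 := by
      rw [PadicInt.norm_lt_one_iff_dvd]
      exact Dvd.intro _ rfl
    rw [← PadicInt.isUnit_iff]
    have : a - 1 ∈ IsLocalRing.maximalIdeal ℤ_[p] := by
      rw [ha, add_sub_cancel_left, PadicInt.maximalIdeal_eq_span_p]
      exact Ideal.mem_span_singleton.mpr (Dvd.intro _ rfl)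
    by_contra hnu
    have h2 : a ∈ IsLocalRing.maximalIdeal ℤ_[p] := (IsLocalRing.mem_maximalIdeal a).mpr hnu
    have h3 : (1 : ℤ_[p]) ∈ IsLocalRing.maximalIdeal ℤ_[p] := by
      have := Ideal.sub_mem _ h2 this
      simp at this
    exact (IsLocalRing.maximalIdeal.isMaximal ℤ_[p]).ne_top
      ((Ideal.eq_top_iff_one _).mpr h3)
  have hFa : aeval a F = (p : ℤ_[p]) ^ 3 * c := by
    simp only [hF, map_sub, map_pow, aeval_X, aeval_C, Algebra.algebraMap_self, RingHom.id_apply]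
    rw [hc]
    ring
  have hF'a : aeval a (derivative F) = (p : ℤ_[p]) * a ^ (p - 1) := by
    simp only [hF, derivative_sub, derivative_X_pow, derivative_C, sub_zero, map_mul, map_pow,
      aeval_X, map_natCast]
  have hnorm : ‖aeval a F‖ < ‖aeval a (derivative F)‖ ^ 2 := by
    rw [hFa, hF'a, norm_mul, norm_mul, norm_pow, norm_pow, hanorm, one_pow, mul_one,
      PadicInt.norm_p]
    have hc1 : ‖c‖ ≤ 1 := PadicInt.norm_le_one c
    have hpi : (0 : ℝ) < (p : ℝ)⁻¹ := inv_pos.mpr hp0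
    have hpi1 : (p : ℝ)⁻¹ < 1 := inv_lt_one_of_one_lt₀ hp1
    calc (p : ℝ)⁻¹ ^ 3 * ‖c‖ ≤ (p : ℝ)⁻¹ ^ 3 * 1 := by
          apply mul_le_mul_of_nonneg_left hc1 (by positivity)
      _ = (p : ℝ)⁻¹ ^ 2 * (p : ℝ)⁻¹ := by ring
      _ < (p : ℝ)⁻¹ ^ 2 * 1 := by
          apply mul_lt_mul_of_pos_left hpi1 (by positivity)
      _ = (p : ℝ)⁻¹ ^ 2 := by ring
  obtain ⟨z, hz, -⟩ := hensels_lemma hnorm
  refine ⟨z, ?_⟩
  simp only [hF, map_sub, map_pow, aeval_X, aeval_C, Algebra.algebraMap_self, RingHom.id_apply]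
    at hz
  exact sub_eq_zero.mp hz

/-- `(1 + p)^j = 1 + j p + p² c`. -/
theorem one_add_p_pow (j : ℕ) :
    ∃ c : ℤ_[p], (1 + (p : ℤ_[p])) ^ j = 1 + (j : ℤ_[p]) * p + (p : ℤ_[p]) ^ 2 * c := by
  induction j with
  | zero => exact ⟨0, by simp⟩
  | succ j ih =>
    obtain ⟨c, hc⟩ := ih
    refine ⟨j + c + c * p, ?_⟩
    rw [pow_succ, hc]
    push_cast
    ring

/-- units of `ℤ_p` are of the form `(1+p)^j w^p`. -/
theorem exists_unit_rep (hp2 : p ≠ 2) (u : ℤ_[p]) (hu : ‖u‖ = 1) :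
    ∃ j : ℕ, j < p ∧ ∃ w : ℤ_[p], ‖w‖ = 1 ∧ u = (1 + (p : ℤ_[p])) ^ j * w ^ p := by
  have huu : IsUnit u := PadicInt.isUnit_iff.mpr hu
  -- `u^(p-1) = 1 + p a`
  have hz : PadicInt.toZMod u ≠ 0 := by
    intro h0
    have : u ∈ RingHom.ker (PadicInt.toZMod : ℤ_[p] →+* ZMod p) := h0
    rw [PadicInt.ker_toZMod] at this
    exact (IsLocalRing.mem_maximalIdeal u).mp this huu
  have h1 : PadicInt.toZMod (u ^ (p - 1) - 1) = 0 := by
    rw [map_sub, map_pow, map_one, ZMod.pow_card_sub_one_eq_one hz, sub_self]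
  obtain ⟨a, ha⟩ : ∃ a : ℤ_[p], u ^ (p - 1) = 1 + (p : ℤ_[p]) * a := by
    have : u ^ (p - 1) - 1 ∈ RingHom.ker (PadicInt.toZMod : ℤ_[p] →+* ZMod p) := h1
    rw [PadicInt.ker_toZMod, PadicInt.maximalIdeal_eq_span_p, Ideal.mem_span_singleton] at this
    obtain ⟨a, ha⟩ := this
    exact ⟨a, by rw [← ha]; ring⟩
  -- choose `j ≡ -a`
  set j : ℕ := (-(PadicInt.toZMod a)).val with hj
  have hjp : j < p := ZMod.val_lt _
  obtain ⟨a', ha'⟩ : ∃ a' : ℤ_[p], (j : ℤ_[p]) + a = (p : ℤ_[p]) * a' := by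
    have : (j : ℤ_[p]) + a ∈ RingHom.ker (PadicInt.toZMod : ℤ_[p] →+* ZMod p) := by
      rw [RingHom.mem_ker, map_add, map_natCast, hj, ZMod.natCast_zmod_val]
      ring
    rw [PadicInt.ker_toZMod, PadicInt.maximalIdeal_eq_span_p, Ideal.mem_span_singleton] at this
    exact this
  obtain ⟨c, hc⟩ := one_add_p_pow p j
  -- `(1+p)^j u^(p-1) = 1 + p² s`
  obtain ⟨w₁, hw₁⟩ := exists_pow_eq_one_add_sq_mul p hp2 (a' + (j : ℤ_[p]) * a + c + c * p * a)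
  have hprod : (1 + (p : ℤ_[p])) ^ j * u ^ (p - 1) = w₁ ^ p := by
    rw [hw₁, hc, ha]
    have : (1 + (j : ℤ_[p]) * p + (p : ℤ_[p]) ^ 2 * c) * (1 + (p : ℤ_[p]) * a) =
        1 + (p : ℤ_[p]) * ((j : ℤ_[p]) + a) + (p : ℤ_[p]) ^ 2 * ((j : ℤ_[p]) * a + c + c * p * a) := by
      ring
    rw [this, ha']
    ring
  have hw₁u : IsUnit w₁ := by
    have h1p : IsUnit ((1 + (p : ℤ_[p])) ^ j * u ^ (p - 1)) := by
      refine IsUnit.mul (IsUnit.pow _ ?_) (huu.pow _)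
      rw [PadicInt.isUnit_iff]
      have h2 : ‖(p : ℤ_[p])‖ < 1 := by
        rw [PadicInt.norm_lt_one_iff_dvd]
      by_contra hne
      have hlt : ‖1 + (p : ℤ_[p])‖ < 1 := lt_of_le_of_ne (PadicInt.norm_le_one _) hne
      have : ‖(1 : ℤ_[p])‖ < 1 := by
        have h3 : (1 : ℤ_[p]) = (1 + (p : ℤ_[p])) + (-(p : ℤ_[p])) := by ring
        rw [h3]
        exact lt_of_le_of_lt (PadicInt.nonarchimedean _ _) (max_lt hlt (by simpa using h2))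
      simp at this
    rw [hprod] at h1p
    exact (isUnit_pow_iff (hp.out.ne_zero)).mp h1p
  obtain ⟨w₁', hw₁'⟩ := hw₁u
  obtain ⟨u', hu'⟩ := huu
  refine ⟨j, hjp, u * ((w₁'⁻¹ : ℤ_[p]ˣ) : ℤ_[p]), ?_, ?_⟩
  · rw [← PadicInt.isUnit_iff, ← hu']
    exact (u' * w₁'⁻¹).isUnit
  · -- `u = (1+p)^j (u / w₁)^p`
    have hpp : p - 1 + 1 = p := Nat.sub_add_cancel hp.out.one_le
    have h2 : (1 + (p : ℤ_[p])) ^ j * u ^ p = u * w₁ ^ p := by
      rw [← hprod]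
      have : u ^ p = u ^ (p - 1) * u := by
        rw [← pow_succ]
        congr 1
        omega
      rw [this]
      ring
    have h3 : w₁ ^ p * ((w₁'⁻¹ : ℤ_[p]ˣ) : ℤ_[p]) ^ p = 1 := by
      rw [← mul_pow, ← hw₁', ← Units.val_mul, mul_inv_cancel, Units.val_one, one_pow]
    calc u = u * (w₁ ^ p * ((w₁'⁻¹ : ℤ_[p]ˣ) : ℤ_[p]) ^ p) := by rw [h3, mul_one]
      _ = (u * w₁ ^ p) * ((w₁'⁻¹ : ℤ_[p]ˣ) : ℤ_[p]) ^ p := by ring
      _ = (1 + (p : ℤ_[p])) ^ j * u ^ p * ((w₁'⁻¹ : ℤ_[p]ˣ) : ℤ_[p]) ^ p := by rw [h2]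
      _ = (1 + (p : ℤ_[p])) ^ j * (u * ((w₁'⁻¹ : ℤ_[p]ˣ) : ℤ_[p])) ^ p := by ring

/-- **`ℚ_p^× = ⋃_{i,j<p} p^i (1+p)^j (ℚ_p^×)^p`** for odd `p`. -/
theorem exists_rep (hp2 : p ≠ 2) (x : ℚ_[p]) (hx : x ≠ 0) :
    ∃ i j : ℕ, i < p ∧ j < p ∧ ∃ y : ℚ_[p], y ≠ 0 ∧
      x = (p : ℚ_[p]) ^ i * (1 + (p : ℚ_[p])) ^ j * y ^ p := by
  have hp0 : (p : ℚ_[p]) ≠ 0 := by exact_mod_cast hp.out.ne_zero
  have hpR : (0 : ℝ) < p := by exact_mod_cast hp.out.pos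
  set v : ℤ := x.valuation with hv
  set u₀ : ℚ_[p] := x * (p : ℚ_[p]) ^ (-v) with hu₀
  have hu₀n : ‖u₀‖ = 1 := by
    rw [hu₀, norm_mul, Padic.norm_eq_zpow_neg_valuation hx, Padic.norm_p_zpow, neg_neg,
      ← zpow_add₀ hpR.ne']
    simp [hv]
  obtain ⟨j, hjp, w, hw, huw⟩ := exists_unit_rep p hp2 ⟨u₀, hu₀n.le⟩ hu₀n
  have huw' : u₀ = (1 + (p : ℚ_[p])) ^ j * (w : ℚ_[p]) ^ p := by
    have := congrArg (fun z : ℤ_[p] => (z : ℚ_[p])) huw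
    simpa using this
  have hw0 : (w : ℚ_[p]) ≠ 0 := by
    intro h0
    have : ‖(w : ℚ_[p])‖ = 1 := hw
    rw [h0, norm_zero] at this
    exact zero_ne_one this
  have hpZ : (0 : ℤ) < p := by exact_mod_cast hp.out.pos
  set i : ℕ := (v % (p : ℤ)).toNat with hi
  have hiZ : (i : ℤ) = v % (p : ℤ) := Int.toNat_of_nonneg (Int.emod_nonneg _ hpZ.ne')
  have hip : i < p := by
    have : (i : ℤ) < p := by rw [hiZ]; exact Int.emod_lt_of_pos _ hpZ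
    exact_mod_cast this
  set q : ℤ := v / (p : ℤ) with hq
  have hvq : v = (i : ℤ) + q * p := by
    rw [hiZ, hq]
    have := Int.emod_add_mul_ediv v p
    linarith [this, mul_comm (p : ℤ) (v / p)]
  refine ⟨i, j, hip, hjp, (p : ℚ_[p]) ^ q * w, mul_ne_zero (zpow_ne_zero _ hp0) hw0, ?_⟩
  have hx' : x = (p : ℚ_[p]) ^ v * u₀ := by
    rw [hu₀, mul_comm x, ← mul_assoc, ← zpow_add₀ hp0, add_neg_cancel, zpow_zero, one_mul]
  have hpv : (p : ℚ_[p]) ^ v = (p : ℚ_[p]) ^ i * ((p : ℚ_[p]) ^ q) ^ p := by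
    rw [hvq, zpow_add₀ hp0, zpow_natCast, zpow_mul, zpow_natCast]
  rw [hx', hpv, huw', mul_pow]
  ring

end Fermat.Agent.S56lib.Kum2
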