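/-
S56lib / Kum2 / Count  (helper4).

**Kummer count**: the smooth `1`-cocycles of the local Galois group `G_p` with values in
`𝔽_p(χ̄)` (`χ̄` the mod `p` cyclotomic character) form a set with at most `p³` elements, `p` odd.

Route: `f ↦ ζ^f` is a multiplicative cocycle into `μ_p(ℚ̄_p)`, trivialised by Hilbert 90
(`S55lib.hilbert90_dedekind`) by some `b` with `b^p ∈ ℚ_p^×`; the class of `b^p` modulo `p`-th powers
takes `≤ p²` values (`Kum2/QpPow`), and its fibres have `≤ p` elements.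
-/
import Mathlib
import Fermat.Agent.S55lib.Cpx.H90
import Fermat.Agent.S55lib.Cpx.Level
import Fermat.Agent.S55lib.Iface.Top
import Fermat.Agent.S56lib.Dict.CondCocycle
import Fermat.Agent.S56lib.Kum2.QpPow

set_option autoImplicit false

noncomputable section

namespace Fermat.Agent.S56lib.Kum2

open Fermat.Agent.S55lib

/-! ### Powers of a primitive `p`-th root of unity indexed by `ZMod p` -/

section E

variable {Ω : Type*} [Field Ω] {p : ℕ} [hp : Fact p.Prime]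

/-- `ζ ^ n` for `n : ZMod p`. -/
def zE (ζ : Ω) (n : ZMod p) : Ω := ζ ^ n.val

variable {ζ : Ω} (hζ : IsPrimitiveRoot ζ p)

include hζ

theorem zE_natCast (m : ℕ) : zE ζ (m : ZMod p) = ζ ^ m := by
  rw [zE, ZMod.val_natCast, ← pow_eq_pow_mod m hζ.pow_eq_one]

theorem zE_add (a b : ZMod p) : zE ζ (a + b) = zE ζ a * zE ζ b := by
  have : a + b = ((a.val + b.val : ℕ) : ZMod p) := by
    push_cast
    rw [ZMod.natCast_zmod_val, ZMod.natCast_zmod_val]
  rw [this, zE_natCast hζ, pow_add]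
  rfl

theorem zE_zero : zE ζ (0 : ZMod p) = 1 := by
  rw [zE, ZMod.val_zero, pow_zero]

theorem zE_ne_zero (a : ZMod p) : zE ζ a ≠ 0 :=
  pow_ne_zero _ (hζ.ne_zero hp.out.ne_zero)

theorem zE_neg_mul (a : ZMod p) : zE ζ (-a) * zE ζ a = 1 := by
  rw [← zE_add hζ, neg_add_cancel, zE_zero hζ]

theorem zE_injective : Function.Injective (zE ζ : ZMod p → Ω) := by
  intro a b h
  exact ZMod.val_injective p (hζ.pow_inj (ZMod.val_lt a) (ZMod.val_lt b) h)

theorem zE_pow (a : ZMod p) : zE ζ a ^ p = 1 := by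
  rw [zE, ← pow_mul, mul_comm, pow_mul, hζ.pow_eq_one, one_pow]

theorem exists_zE_of_pow_eq_one {x : Ω} (hx : x ^ p = 1) : ∃ n : ZMod p, x = zE ζ n := by
  haveI : NeZero p := ⟨hp.out.ne_zero⟩
  obtain ⟨i, -, hi⟩ := hζ.eq_pow_of_pow_eq_one hx
  exact ⟨(i : ZMod p), by rw [zE_natCast hζ, hi]⟩

theorem map_zE {S : Type*} [FunLike S Ω Ω] [MonoidHomClass S Ω Ω] (s : S) (m : ℕ)
    (hs : s ζ = ζ ^ m) (a : ZMod p) : s (zE ζ a) = zE ζ ((m : ZMod p) * a) := by
  have : (m : ZMod p) * a = ((m * a.val : ℕ) : ZMod p) := by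
    push_cast
    rw [ZMod.natCast_zmod_val]
  rw [this, zE_natCast hζ, zE, map_pow, hs, ← pow_mul]

end E

/-! ### The count -/

variable (p : ℕ) [hp : Fact p.Prime]

/-- the mod `p` cyclotomic character on the local Galois group -/
def chiLoc (s : PadicAlgCl p ≃ₐ[ℚ_[p]] PadicAlgCl p) : ZMod p :=
  ((ExtCitation.cycloExp p (localGaloisToGlobal p s) : ℕ) : ZMod p)

/-- the Kummer relation: `ζ^f` is the coboundary of `b`, and `b^p = p^i (1+p)^j y^p`. -/
def KumRel (ζ : PadicAlgCl p) (f : (PadicAlgCl p ≃ₐ[ℚ_[p]] PadicAlgCl p) → ZMod p) (i j : ℕ) :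
    Prop :=
  ∃ b : PadicAlgCl p, b ≠ 0 ∧ (∀ t : PadicAlgCl p ≃ₐ[ℚ_[p]] PadicAlgCl p, zE ζ (f t) * t b = b) ∧
    ∃ y : ℚ_[p], y ≠ 0 ∧
      b ^ p = algebraMap ℚ_[p] (PadicAlgCl p)
        ((p : ℚ_[p]) ^ i * (1 + (p : ℚ_[p])) ^ j * y ^ p)

variable {p}

/-- the local Galois group acts on `ζ_p` through `χ̄` -/
theorem apply_zeta_eq {ζ' : AlgebraicClosure ℚ} (hζ' : IsPrimitiveRoot ζ' p)
    (s : PadicAlgCl p ≃ₐ[ℚ_[p]] PadicAlgCl p) :
    s (padicEmbedding p ζ') =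
      padicEmbedding p ζ' ^ ExtCitation.cycloExp p (localGaloisToGlobal p s) := by
  rw [← padicEmbedding_localGaloisToGlobal,
    Dict.apply_root_eq_pow_cycloExp p _ ζ' (by rw [pow_one]; exact hζ'.pow_eq_one), map_pow]

/-- **fibres of the Kummer map have at most `p` elements** -/
theorem KumRel.eq_add {ζ : PadicAlgCl p} (hζ : IsPrimitiveRoot ζ p)
    (hζs : ∀ s : PadicAlgCl p ≃ₐ[ℚ_[p]] PadicAlgCl p,
      s ζ = ζ ^ ExtCitation.cycloExp p (localGaloisToGlobal p s))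
    {f g : (PadicAlgCl p ≃ₐ[ℚ_[p]] PadicAlgCl p) → ZMod p} {i j : ℕ}
    (hf : KumRel p ζ f i j) (hg : KumRel p ζ g i j) :
    ∃ n : ZMod p, ∀ t, f t = g t + n * (1 - chiLoc p t) := by
  obtain ⟨b, hb0, hb, y, hy0, hby⟩ := hf
  obtain ⟨b', hb'0, hb', y', hy'0, hby'⟩ := hg
  have hp0 : (p : ℚ_[p]) ≠ 0 := by exact_mod_cast hp.out.ne_zero
  have h1p : (1 + (p : ℚ_[p])) ≠ 0 := by
    intro h0
    have h1 : ‖(1 : ℚ_[p])‖ = ‖(p : ℚ_[p])‖ := by
      rw [eq_neg_of_add_eq_zero_left h0, norm_neg]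
    rw [norm_one, Padic.norm_p] at h1
    have : (1 : ℝ) < p := by exact_mod_cast hp.out.one_lt
    have := inv_lt_one_of_one_lt₀ this
    linarith
  set w : PadicAlgCl p := algebraMap ℚ_[p] (PadicAlgCl p) (y / y') with hw
  have hw0 : w ≠ 0 := by
    rw [hw, Ne, map_eq_zero]
    exact div_ne_zero hy0 hy'0
  have hbw : b' * w ≠ 0 := mul_ne_zero hb'0 hw0
  have hpow : (b / (b' * w)) ^ p = 1 := by
    rw [div_pow, mul_pow, hby, hby', hw, ← map_pow, ← map_mul, ← map_div₀]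
    rw [show (1 : PadicAlgCl p) = algebraMap ℚ_[p] (PadicAlgCl p) 1 from (map_one _).symm]
    congr 1
    have h2 : (p : ℚ_[p]) ^ i * (1 + (p : ℚ_[p])) ^ j ≠ 0 :=
      mul_ne_zero (pow_ne_zero _ hp0) (pow_ne_zero _ h1p)
    have h3 : y' ^ p ≠ 0 := pow_ne_zero _ hy'0
    rw [div_pow]
    field_simp
  obtain ⟨n, hn⟩ := exists_zE_of_pow_eq_one hζ hpow
  have hbn : b = zE ζ n * (b' * w) := by
    rw [← hn, div_mul_cancel₀ _ hbw]
  refine ⟨n, fun t => ?_⟩
  have htw : t w = w := by rw [hw]; exact t.commutes _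
  have htz : t (zE ζ n) = zE ζ (chiLoc p t * n) := map_zE hζ t _ (hζs t) n
  -- `t b' = ζ^{-g t} b'`
  have htb' : t b' = zE ζ (-(g t)) * b' := by
    have := hb' t
    calc t b' = (zE ζ (-(g t)) * zE ζ (g t)) * t b' := by rw [zE_neg_mul hζ, one_mul]
      _ = zE ζ (-(g t)) * (zE ζ (g t) * t b') := by ring
      _ = zE ζ (-(g t)) * b' := by rw [this]
  have key : zE ζ (f t + chiLoc p t * n + -(g t)) = zE ζ n := by
    have h1 := hb t
    rw [hbn, map_mul, map_mul, htw, htz, htb'] at h1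
    have h2 : zE ζ (f t + chiLoc p t * n + -(g t)) * (b' * w) = zE ζ n * (b' * w) := by
      rw [zE_add hζ, zE_add hζ, ← h1]
      ring
    exact mul_right_cancel₀ hbw h2
  have := zE_injective hζ key
  linear_combination this

/-- **every smooth cocycle has a Kummer datum** -/
theorem exists_kumRel (hp2 : p ≠ 2) {ζ' : AlgebraicClosure ℚ} (hζ' : IsPrimitiveRoot ζ' p)
    {f : (PadicAlgCl p ≃ₐ[ℚ_[p]] PadicAlgCl p) → ZMod p}
    (hlc : Sm.IsLC₁ (localGaloisToGlobal p) LevelClass.all f)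
    (hcoc : ∀ s t, f (s * t) = f s + chiLoc p s * f t) :
    ∃ i j : ℕ, i < p ∧ j < p ∧ KumRel p (padicEmbedding p ζ') f i j := by
  set ζ : PadicAlgCl p := padicEmbedding p ζ' with hζdef
  have hζ : IsPrimitiveRoot ζ p := hζ'.map_of_injective (padicEmbedding p).toRingHom.injective
  have hζs := fun s => apply_zeta_eq hζ' s
  obtain ⟨F, hFfin, hF⟩ := hlc
  haveI : FiniteDimensional ℚ F := hFfin
  -- the open subgroup
  set U₁ : Subgroup (PadicAlgCl p ≃ₐ[ℚ_[p]] PadicAlgCl p) :=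
    F.fixingSubgroup.comap (localGaloisToGlobal p) with hU₁
  haveI hfin : (U₁.subgroupOf ⊤).FiniteIndex := by
    haveI := fixingSubgroup_finiteIndex F
    haveI : U₁.FiniteIndex := by
      refine ⟨?_⟩
      rw [hU₁, Subgroup.index_comap]
      exact (Subgroup.instFiniteIndex_subgroupOf F.fixingSubgroup
        (localGaloisToGlobal p).range).index_ne_zero
    infer_instance
  -- the separating monoid
  set L : Submonoid (PadicAlgCl p) :=
    F.toSubalgebra.toSubsemiring.toSubmonoid.map (padicEmbedding p : AlgebraicClosure ℚ →* PadicAlgCl p)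
    with hL
  obtain ⟨b, hb0, hb⟩ := hilbert90_dedekind (Ω := PadicAlgCl p) ⊤ U₁ L
    (by
      rintro u hu x ⟨y, hy, rfl⟩
      show u (padicEmbedding p y) = padicEmbedding p y
      rw [← padicEmbedding_localGaloisToGlobal]
      congr 1
      exact hu ⟨y, hy⟩)
    (by
      intro s _ hs
      show localGaloisToGlobal p s ∈ F.fixingSubgroup
      rw [IntermediateField.mem_fixingSubgroup_iff]
      intro y hy
      have := hs (padicEmbedding p y) ⟨y, hy, rfl⟩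
      change s (padicEmbedding p y) = padicEmbedding p y at this
      rw [← padicEmbedding_localGaloisToGlobal] at this
      exact (padicEmbedding p).toRingHom.injective this)
    (fun s => zE ζ (f s)) (fun s _ => zE_ne_zero hζ _)
    (by
      intro s _ t _
      show zE ζ (f (s * t)) = zE ζ (f s) * s (zE ζ (f t))
      rw [hcoc, zE_add hζ, map_zE hζ s _ (hζs s)]
      rfl)
    (by
      intro s _ u hu _
      show zE ζ (f (s * u)) = zE ζ (f s)
      rw [hF s u hu])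
  -- `b^p` is rational
  have hbfix : ∀ t : PadicAlgCl p ≃ₐ[ℚ_[p]] PadicAlgCl p, t (b ^ p) = b ^ p := by
    intro t
    have h1 : zE ζ (f t) * t b = b := hb t (Subgroup.mem_top t)
    have h2 : t b = zE ζ (-(f t)) * b := by
      calc t b = (zE ζ (-(f t)) * zE ζ (f t)) * t b := by rw [zE_neg_mul hζ, one_mul]
        _ = zE ζ (-(f t)) * (zE ζ (f t) * t b) := by ring
        _ = zE ζ (-(f t)) * b := by rw [h1]
    rw [map_pow, h2, mul_pow, zE_pow hζ, one_mul]
  obtain ⟨x, hx⟩ : b ^ p ∈ Set.range (algebraMap ℚ_[p] (PadicAlgCl p)) :=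
    (InfiniteGalois.mem_range_algebraMap_iff_fixed (b ^ p)).mpr hbfix
  have hx0 : x ≠ 0 := by
    rintro rfl
    rw [map_zero] at hx
    exact pow_ne_zero _ hb0 hx.symm
  obtain ⟨i, j, hi, hj, y, hy0, hxy⟩ := exists_rep p hp2 x hx0
  exact ⟨i, j, hi, hj, b, hb0, fun t => hb t (Subgroup.mem_top t), y, hy0, by rw [← hx, hxy]⟩

variable (p)

/-- the set of smooth `1`-cocycles `G_p → 𝔽_p(χ̄)` -/
def cycloCocycles : Set ((PadicAlgCl p ≃ₐ[ℚ_[p]] PadicAlgCl p) → ZMod p) :=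
  {f | Sm.IsLC₁ (localGaloisToGlobal p) LevelClass.all f ∧
    ∀ s t, f (s * t) =
      f s + ((ExtCitation.cycloExp p (localGaloisToGlobal p s) : ℕ) : ZMod p) * f t}

/-- **Kummer count** `|Z¹(G_p, 𝔽_p(χ̄))| ≤ p³`, `p` odd. -/
theorem cycloCocycles_finite_card_le (hp2 : p ≠ 2) :
    (cycloCocycles p).Finite ∧ Nat.card (cycloCocycles p) ≤ p ^ 3 := by
  classical
  haveI : NeZero p := ⟨hp.out.ne_zero⟩
  obtain ⟨ζ', hζ'⟩ := HasEnoughRootsOfUnity.exists_primitiveRoot (AlgebraicClosure ℚ) p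
  set ζ : PadicAlgCl p := padicEmbedding p ζ' with hζdef
  have hζ : IsPrimitiveRoot ζ p := hζ'.map_of_injective (padicEmbedding p).toRingHom.injective
  have hζs := fun s => apply_zeta_eq hζ' s
  -- base points of the fibres
  let f₀ : ℕ → ℕ → (PadicAlgCl p ≃ₐ[ℚ_[p]] PadicAlgCl p) → ZMod p := fun i j =>
    if h : ∃ g, KumRel p ζ g i j then h.choose else 0
  let Ψ : Fin p × Fin p × ZMod p → ((PadicAlgCl p ≃ₐ[ℚ_[p]] PadicAlgCl p) → ZMod p) :=
    fun x t => f₀ x.1 x.2.1 t + x.2.2 * (1 - chiLoc p t)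
  have hsub : cycloCocycles p ⊆ Set.range Ψ := by
    rintro f ⟨hlc, hcoc⟩
    obtain ⟨i, j, hi, hj, hrel⟩ := exists_kumRel hp2 hζ' hlc hcoc
    have hex : ∃ g, KumRel p ζ g i j := ⟨f, hrel⟩
    have h₀ : KumRel p ζ (f₀ i j) i j := by
      show KumRel p ζ (if h : ∃ g, KumRel p ζ g i j then h.choose else 0) i j
      rw [dif_pos hex]
      exact hex.choose_spec
    obtain ⟨n, hn⟩ := KumRel.eq_add hζ hζs hrel h₀
    exact ⟨(⟨i, hi⟩, ⟨j, hj⟩, n), funext fun t => (hn t).symm⟩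
  have hfin : (Set.range Ψ).Finite := Set.finite_range Ψ
  refine ⟨hfin.subset hsub, ?_⟩
  calc Nat.card (cycloCocycles p) ≤ Nat.card (Set.range Ψ) := Nat.card_mono hfin hsub
    _ ≤ Nat.card (Fin p × Fin p × ZMod p) := Finite.card_range_le Ψ
    _ = p ^ 3 := by
        rw [Nat.card_prod, Nat.card_prod, Nat.card_eq_fintype_card, Fintype.card_fin,
          Nat.card_eq_fintype_card, ZMod.card]
        ring

/-- **Kummer count**, in the `Gloc`/`rloc` spelling (`q : Nat.Primes`). -/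
theorem card_cycloCocycles_le (q : Nat.Primes) [Fact (q : ℕ).Prime] (hq2 : (q : ℕ) ≠ 2) :
    {f : Gloc q → ZMod (q : ℕ) | Sm.IsLC₁ (rloc q) LevelClass.all f ∧
      ∀ s t, f (s * t) =
        f s + ((ExtCitation.cycloExp (q : ℕ) (rloc q s) : ℕ) : ZMod (q : ℕ)) * f t}.Finite ∧
    Nat.card {f : Gloc q → ZMod (q : ℕ) | Sm.IsLC₁ (rloc q) LevelClass.all f ∧
      ∀ s t, f (s * t) =
        f s + ((ExtCitation.cycloExp (q : ℕ) (rloc q s) : ℕ) : ZMod (q : ℕ)) * f t} ≤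
      (q : ℕ) ^ 3 :=
  cycloCocycles_finite_card_le (q : ℕ) hq2

/-- usage at `⟨p, _⟩ : Nat.Primes` -/
example (hp2 : p ≠ 2) : True := by
  have := card_cycloCocycles_le ⟨p, hp.out⟩ hp2
  trivial

end Fermat.Agent.S56lib.Kum2
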